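import Mathlib
import Fermat.Prelude.Def_CuspForm_HeckeAlgebra
import Fermat.Prelude.Thm_Subgroup_IsArithmetic_exists_nat_mem_strictPeriods_conj
import Fermat.Prelude.Sol.S_ModularForm_heckeT_slash_eq_self_of_mem_Gamma0
import Fermat.Statements.S22
import Fermat.Agent.MUL.Orig.Lib.Period.Primitive
import Fermat.Agent.MUL.Orig.S22.Deriv
import Fermat.Agent.MUL.Orig.S22.Bol
import Fermat.Agent.MUL.Orig.S22.Poly
import Fermat.Agent.MUL.Orig.S22.HeckeT
import Fermat.Agent.MUL.Orig.S22.Eichler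
import Fermat.Agent.MUL.Orig.S22.Lattice
import Fermat.Agent.MUL.Orig.S22.HeckeDeriv
import Fermat.Agent.MUL.Orig.S22.PolyAct
import Fermat.Agent.MUL.Orig.S22.GammaFG
import Fermat.Agent.MUL.Orig.Lib.Cyclo.RootsReduce

section MergeWrap_S22_AlgCore -- from S22/AlgCore.lean

set_option autoImplicit false
set_option linter.style.haveILetI false

namespace Fermat.Agent.S22

/-- Algebraic core: a `ℤ`-subalgebra of `End_ℂ V` generated by a set `G` is a finite `ℤ`-module as
soon as there is a finitely generated `ℤ`-submodule `Λ` of the dual `V →ₗ[ℂ] ℂ` which separates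
the points of `V` and is stable under precomposition with every generator. -/
theorem moduleFinite_adjoin_of_dual_lattice {V : Type*} [AddCommGroup V] [Module ℂ V]
    (G : Set (Module.End ℂ V)) (Λ : Submodule ℤ (V →ₗ[ℂ] ℂ)) (hfg : Λ.FG)
    (hsep : ∀ v : V, (∀ l ∈ Λ, l v = 0) → v = 0)
    (hstab : ∀ g ∈ G, ∀ l ∈ Λ, l ∘ₗ g ∈ Λ) :
    Module.Finite ℤ (Algebra.adjoin ℤ G) := by
  classical
  -- the subalgebra of endomorphisms whose transpose preserves `Λ`
  let E : Subalgebra ℤ (Module.End ℂ V) :=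
    { carrier := {t | ∀ l ∈ Λ, l ∘ₗ t ∈ Λ}
      mul_mem' := by
        intro a b ha hb l hl
        have := hb _ (ha l hl)
        simpa [LinearMap.comp_assoc, Module.End.mul_eq_comp] using this
      one_mem' := by
        intro l hl
        have : l ∘ₗ (1 : Module.End ℂ V) = l := by
          ext v
          simp
        rw [this]
        exact hl
      add_mem' := by
        intro a b ha hb l hl
        rw [LinearMap.comp_add]
        exact Λ.add_mem (ha l hl) (hb l hl)
      zero_mem' := by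
        intro l hl
        simp
      algebraMap_mem' := by
        intro n l hl
        have : l ∘ₗ (algebraMap ℤ (Module.End ℂ V) n) = n • l := by
          ext v
          simp
        rw [this]
        exact Λ.smul_mem n hl }
  have hle : Algebra.adjoin ℤ G ≤ E := Algebra.adjoin_le fun g hg => hstab g hg
  haveI : Module.Finite ℤ Λ := Module.Finite.iff_fg.mpr hfg
  haveI : IsAddTorsionFree (V →ₗ[ℂ] ℂ) := .of_isTorsionFree ℂ _
  haveI : IsAddTorsionFree Λ := by
    constructor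
    intro n hn a b hab
    apply Subtype.ext
    have h : n • (a : V →ₗ[ℂ] ℂ) = n • (b : V →ₗ[ℂ] ℂ) := congrArg Subtype.val hab
    exact nsmul_right_injective hn h
  haveI : Module.Free ℤ Λ := Module.free_of_finite_type_torsion_free'
  -- the transpose action on `Λ`
  let φ : (Algebra.adjoin ℤ G) →ₗ[ℤ] Module.End ℤ Λ :=
    { toFun := fun t =>
        { toFun := fun l => ⟨(l : V →ₗ[ℂ] ℂ) ∘ₗ (t : Module.End ℂ V), hle t.2 _ l.2⟩
          map_add' := by
            intro l l'
            apply Subtype.ext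
            simp [LinearMap.add_comp]
          map_smul' := by
            intro n l
            apply Subtype.ext
            ext v
            simp }
      map_add' := by
        intro t t'
        ext l v
        simp
      map_smul' := by
        intro n t
        ext l v
        simp }
  have hφ : Function.Injective φ := by
    intro t t' h
    apply Subtype.ext
    ext v
    apply sub_eq_zero.mp
    apply hsep
    intro l hl
    have h1 := congrArg (fun e : Module.End ℤ Λ => ((e ⟨l, hl⟩ : Λ) : V →ₗ[ℂ] ℂ) v) h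
    simp only [φ, LinearMap.coe_mk, AddHom.coe_mk, LinearMap.comp_apply] at h1
    rw [map_sub, h1, sub_self]
  exact Module.Finite.of_injective φ hφ

end Fermat.Agent.S22
end MergeWrap_S22_AlgCore

section MergeWrap_S22_Separation -- from S22/Separation.lean

/-!
# S22, part P4: separation

If the Eichler integral `E` of a cusp form `f` of weight `m + 2` on `Γ₀(N)` is invariant under the
weight `-m` action of `Γ₀(N)`, then `f = 0`.
-/

set_option autoImplicit false

namespace Fermat.Agent.S22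

open UpperHalfPlane Polynomial Matrix.SpecialLinearGroup Filter
open scoped ModularForm MatrixGroups Manifold Topology Pointwise

/-! ### Elementary facts about `dH` -/

theorem sep_dH_eq_of_hasDerivAt {F f : ℍ → ℂ}
    (h : ∀ τ : ℍ, HasDerivAt (F ∘ ofComplex) (f τ) (τ : ℂ)) : dH F = f :=
  funext fun τ => (h τ).deriv

theorem sep_dH_sub {F G : ℍ → ℂ} (hF : MDiff F) (hG : MDiff G) : dH (F - G) = dH F - dH G := by
  funext τ
  have h1 := UpperHalfPlane.mdifferentiableAt_iff.mp (hF τ)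
  have h2 := UpperHalfPlane.mdifferentiableAt_iff.mp (hG τ)
  show deriv ((F - G) ∘ ofComplex) (τ : ℂ) = _
  have : ((F - G) ∘ ofComplex) = (F ∘ ofComplex) - (G ∘ ofComplex) := rfl
  rw [this, deriv_sub h1 h2]
  rfl

theorem sep_dH_const (c : ℂ) : dH (fun _ : ℍ => c) = 0 := by
  funext τ
  show deriv ((fun _ : ℍ => c) ∘ ofComplex) (τ : ℂ) = 0
  have : ((fun _ : ℍ => c) ∘ ofComplex) = fun _ : ℂ => c := rfl
  rw [this, deriv_const]

theorem sep_dH_zero : dH (0 : ℍ → ℂ) = 0 := sep_dH_const 0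

theorem sep_iterate_dH_zero (n : ℕ) : dH^[n] (0 : ℍ → ℂ) = 0 := by
  induction n with
  | zero => rfl
  | succ n ih => rw [Function.iterate_succ_apply', ih, sep_dH_zero]

theorem sep_mdiff_iterate_dH {F : ℍ → ℂ} (hF : MDiff F) (n : ℕ) : MDiff (dH^[n] F) := by
  induction n with
  | zero => exact hF
  | succ n ih =>
    rw [Function.iterate_succ_apply']
    exact mdiff_dH ih

theorem sep_iterate_dH_sub {F G : ℍ → ℂ} (hF : MDiff F) (hG : MDiff G) (n : ℕ) :
    dH^[n] (F - G) = dH^[n] F - dH^[n] G := by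
  induction n with
  | zero => rfl
  | succ n ih =>
    rw [Function.iterate_succ_apply', Function.iterate_succ_apply', Function.iterate_succ_apply',
      ih, sep_dH_sub (sep_mdiff_iterate_dH hF n) (sep_mdiff_iterate_dH hG n)]

/-- Iterated decaying periodic primitives. -/
theorem sep_exists_iterated_primitive {h : ℝ} (hh : 0 < h) (n : ℕ) :
    ∀ {f : ℍ → ℂ}, MDiff f → Function.Periodic (f ∘ ofComplex) h → IsZeroAtImInfty f →
      ∃ F : ℍ → ℂ, MDiff F ∧ dH^[n] F = f ∧ Function.Periodic (F ∘ ofComplex) h ∧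
        IsZeroAtImInfty F := by
  induction n with
  | zero => exact fun {f} hf hper hz => ⟨f, hf, rfl, hper, hz⟩
  | succ n ih =>
    intro f hf hper hz
    obtain ⟨F₁, hF₁, hd₁, hper₁, hz₁⟩ := Fermat.Agent.Period.exists_periodic_primitive hh hf hper hz
    obtain ⟨F, hF, hd, hperF, hzF⟩ := ih hF₁ hper₁ hz₁
    refine ⟨F, hF, ?_, hperF, hzF⟩
    rw [Function.iterate_succ_apply', hd]
    exact sep_dH_eq_of_hasDerivAt hd₁

/-! ### Periodic polynomials are constant -/

theorem sep_poly_const_of_periodic (p : ℂ[X]) {M : ℝ} (hM : M ≠ 0)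
    (h : ∀ τ : ℍ, p.eval ((τ : ℂ) + M) = p.eval (τ : ℂ)) : ∃ c : ℂ, p = C c := by
  have hMc : (M : ℂ) ≠ 0 := by exact_mod_cast hM
  -- the polynomial `p(X + M) - p` vanishes on the upper half-plane, hence is zero
  have hq : p.comp (X + C (M : ℂ)) - p = 0 := by
    apply Polynomial.eq_zero_of_infinite_isRoot
    have hinf : (Set.range fun n : ℕ => ((n : ℂ) + Complex.I)).Infinite := by
      apply Set.infinite_range_of_injective
      intro a b hab
      have := congrArg Complex.re hab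
      simpa using this
    refine hinf.mono ?_
    rintro _ ⟨n, rfl⟩
    have him : 0 < ((n : ℂ) + Complex.I).im := by simp
    have := h ⟨(n : ℂ) + Complex.I, him⟩
    simp only [Set.mem_ofPred_eq, IsRoot.def, eval_sub, eval_comp, eval_add, eval_X, eval_C]
    rw [sub_eq_zero]
    exact this
  have hq' : p.comp (X + C (M : ℂ)) = p := sub_eq_zero.mp hq
  have hshift : ∀ z : ℂ, p.eval (z + M) = p.eval z := by
    intro z
    have := congrArg (Polynomial.eval z) hq'
    simpa [eval_comp] using this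
  have hn : ∀ n : ℕ, p.eval ((n : ℂ) * M) = p.eval 0 := by
    intro n
    induction n with
    | zero => simp
    | succ n ih =>
      rw [← ih, ← hshift ((n : ℂ) * M)]
      congr 1
      push_cast
      ring
  refine ⟨p.eval 0, ?_⟩
  have hz : p - C (p.eval 0) = 0 := by
    apply Polynomial.eq_zero_of_infinite_isRoot
    have hinf : (Set.range fun n : ℕ => ((n : ℂ) * M)).Infinite := by
      apply Set.infinite_range_of_injective
      intro a b hab
      have := mul_right_cancel₀ hMc hab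
      exact_mod_cast this
    refine hinf.mono ?_
    rintro _ ⟨n, rfl⟩
    simp only [Set.mem_ofPred_eq, IsRoot.def, eval_sub, eval_C]
    rw [hn n, sub_self]
  exact sub_eq_zero.mp hz

/-! ### The main argument -/

section Main

variable {N : ℕ} [NeZero N] {m : ℕ}

/-- `E` as a slash-invariant form of weight `-m`. -/
noncomputable def sepSIF (E : ℍ → ℂ)
    (hinv : ∀ γ ∈ CongruenceSubgroup.Gamma0 N, E ∣[-(m : ℤ)] (mapGL ℝ γ) = E) :
    SlashInvariantForm (CongruenceSubgroup.Gamma0 N : Subgroup (GL (Fin 2) ℝ)) (-(m : ℤ)) where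
  toFun := E
  slash_action_eq' := by
    rintro γ ⟨γ₀, hγ₀, rfl⟩
    exact hinv γ₀ hγ₀

/-- Key step: for every `σ ∈ SL(2, ℤ)` the function `E ∣[-m] σ` is bounded at `i∞`. -/
theorem sep_isBoundedAtImInfty_slash (f : CuspForm (CongruenceSubgroup.Gamma0 N) ((m : ℤ) + 2))
    (E : ℍ → ℂ) (hE : MDiff E) (hd : dH^[m + 1] E = f)
    (hinv : ∀ γ ∈ CongruenceSubgroup.Gamma0 N, E ∣[-(m : ℤ)] (mapGL ℝ γ) = E) (σ : SL(2, ℤ)) :
    IsBoundedAtImInfty (E ∣[-(m : ℤ)] (mapGL ℝ σ)) := by
  set g : GL (Fin 2) ℝ := mapGL ℝ σ with hg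
  have hdet : g.val.det = 1 := by
    rw [← Matrix.GeneralLinearGroup.val_det_apply]; simp [hg]
  have hdetpos : 0 < g.val.det := by rw [hdet]; exact one_pos
  -- a common period of the conjugate group
  obtain ⟨M, hMpos, hMper⟩ := Subgroup.IsArithmetic.exists_nat_mem_strictPeriods_conj
    (CongruenceSubgroup.Gamma0 N : Subgroup (GL (Fin 2) ℝ))
  have hM : (M : ℝ) ∈ (ConjAct.toConjAct g⁻¹ •
      (CongruenceSubgroup.Gamma0 N : Subgroup (GL (Fin 2) ℝ))).strictPeriods := by
    have := hMper σ⁻¹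
    rwa [map_inv] at this
  have hMpos' : (0 : ℝ) < M := by exact_mod_cast hMpos
  -- the translated cusp form
  set ft : ℍ → ℂ := ⇑f ∣[(m : ℤ) + 2] g with hft
  have hft_mdiff : MDiff ft := CuspFormClass.holo (CuspForm.translate f g)
  have hft_per : Function.Periodic (ft ∘ ofComplex) ((M : ℝ) : ℂ) :=
    SlashInvariantFormClass.periodic_comp_ofComplex (CuspForm.translate f g) hM
  have hft_zero : IsZeroAtImInfty ft := CuspFormClass.zero_at_infty_slash f σ
  -- its iterated primitive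
  obtain ⟨Et, hEt, hdEt, hEt_per, hEt_zero⟩ :=
    sep_exists_iterated_primitive hMpos' (m + 1) hft_mdiff hft_per hft_zero
  -- Bol's identity
  have hEg : MDiff (E ∣[-(m : ℤ)] g) := hE.slash _ _
  have hbol : dH^[m + 1] (E ∣[-(m : ℤ)] g) = ft := by
    rw [bol m hE hdetpos, hdet, hd]
    simp [hft]
  have hdiff : dH^[m + 1] (E ∣[-(m : ℤ)] g - Et) = 0 := by
    rw [sep_iterate_dH_sub hEg hEt, hbol, hdEt, sub_self]
  obtain ⟨p, -, hp⟩ := exists_poly_of_iterate_dH_eq_zero m (hEg.sub hEt) hdiff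
  -- periodicity
  have hEg_per : Function.Periodic ((E ∣[-(m : ℤ)] g) ∘ ofComplex) ((M : ℝ) : ℂ) :=
    SlashInvariantFormClass.periodic_comp_ofComplex
      (SlashInvariantForm.translate (sepSIF E hinv) g) hM
  have hp_per : ∀ τ : ℍ, p.eval ((τ : ℂ) + (M : ℝ)) = p.eval (τ : ℂ) := by
    intro τ
    have him : 0 < ((τ : ℂ) + (M : ℝ)).im := by simpa using τ.2
    have h1 := hp ⟨(τ : ℂ) + (M : ℝ), him⟩
    have h2 := hp τ
    have e1 : (E ∣[-(m : ℤ)] g) ⟨(τ : ℂ) + (M : ℝ), him⟩ = (E ∣[-(m : ℤ)] g) τ := by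
      have := hEg_per (τ : ℂ)
      rwa [Function.comp_apply, Function.comp_apply, ofComplex_apply_of_im_pos him,
        ofComplex_apply] at this
    have e2 : Et ⟨(τ : ℂ) + (M : ℝ), him⟩ = Et τ := by
      have := hEt_per (τ : ℂ)
      rwa [Function.comp_apply, Function.comp_apply, ofComplex_apply_of_im_pos him,
        ofComplex_apply] at this
    rw [← h1, ← h2]
    simp only [Pi.sub_apply]
    rw [e1, e2]
  obtain ⟨c, hc⟩ := sep_poly_const_of_periodic p hMpos'.ne' hp_per
  have hEq : E ∣[-(m : ℤ)] g = Et + fun _ => c := by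
    funext τ
    have := hp τ
    rw [hc, eval_C] at this
    simp only [Pi.sub_apply] at this
    simp only [Pi.add_apply]
    rw [← this]
    ring
  rw [hEq]
  exact hEt_zero.isBoundedAtImInfty.add (Filter.const_boundedAtFilter _ c)

end Main

section Final

variable {N : ℕ} [NeZero N] {m : ℕ}

/-- `E` as a modular form of weight `-m`. -/
noncomputable def sepMF (f : CuspForm (CongruenceSubgroup.Gamma0 N) ((m : ℤ) + 2))
    (E : ℍ → ℂ) (hE : MDiff E) (hd : dH^[m + 1] E = f)
    (hinv : ∀ γ ∈ CongruenceSubgroup.Gamma0 N, E ∣[-(m : ℤ)] (mapGL ℝ γ) = E) :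
    ModularForm (CongruenceSubgroup.Gamma0 N : Subgroup (GL (Fin 2) ℝ)) (-(m : ℤ)) where
  toSlashInvariantForm := sepSIF E hinv
  holo' := hE
  bdd_at_cusps' := fun {c} hc => by
    rw [Subgroup.IsArithmetic.isCusp_iff_isCusp_SL2Z] at hc
    rw [OnePoint.isBoundedAt_iff_forall_SL2Z hc]
    intro γ _
    exact sep_isBoundedAtImInfty_slash f E hE hd hinv γ

theorem separation (N : ℕ) [NeZero N] (m : ℕ)
    (f : CuspForm (CongruenceSubgroup.Gamma0 N) ((m : ℤ) + 2))
    (E : ℍ → ℂ) (hE : MDiff E) (hd : dH^[m + 1] E = f) (hz : IsZeroAtImInfty E)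
    (hinv : ∀ γ ∈ CongruenceSubgroup.Gamma0 N, E ∣[-(m : ℤ)] (mapGL ℝ γ) = E) : f = 0 := by
  have hconst : ∃ c : ℂ, E = fun _ => c := by
    rcases Nat.eq_zero_or_pos m with hm | hm
    · subst hm
      have h0 : (-((0 : ℕ) : ℤ)) = 0 := by simp
      obtain ⟨c, hc⟩ := ModularForm.eq_const_of_weight_zero
        (ModularForm.mcast h0 (sepMF f E hE hd hinv))
      exact ⟨c, hc⟩
    · have hneg : (-(m : ℤ)) < 0 := by omega
      have h0 := ModularForm.isZero_of_neg_weight hneg (sepMF f E hE hd hinv)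
      refine ⟨0, ?_⟩
      have := congrArg (fun F : ModularForm _ _ => (F : ℍ → ℂ)) h0
      exact this
  obtain ⟨c, hc⟩ := hconst
  have hf0 : (f : ℍ → ℂ) = 0 := by
    rw [← hd, hc, Function.iterate_succ_apply, sep_dH_const, sep_iterate_dH_zero]
  exact DFunLike.coe_injective hf0

end Final

end Fermat.Agent.S22
end MergeWrap_S22_Separation

section MergeWrap_S22_Trivial -- from S22/Trivial.lean

set_option autoImplicit false
set_option linter.style.haveILetI false

/-!
# Trivial weights for S22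

For `k ≤ 0` or `k` odd every cusp form on `Γ₀(N)` vanishes, and then the Hecke algebra is
(trivially) a finite `ℤ`-module.
-/

open UpperHalfPlane
open scoped Manifold MatrixGroups ModularForm Topology

namespace Fermat.Agent.S22

theorem cuspForm_eq_zero_of_nonpos (N : ℕ) [NeZero N] {k : ℤ} (hk : k ≤ 0)
    (f : CuspForm (CongruenceSubgroup.Gamma0 N) k) : f = 0 := by
  rcases hk.lt_or_eq with hneg | rfl
  · have h := ModularForm.isZero_of_neg_weight hneg (CuspForm.toModularFormₗ f)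
    exact CuspForm.toModularFormₗ_injective (by rw [h, map_zero])
  · obtain ⟨c, hc⟩ := ModularForm.eq_const_of_weight_zero (CuspForm.toModularFormₗ f)
    have hfc : (f : ℍ → ℂ) = Function.const ℍ c := by
      rw [← hc]; rfl
    have hz : IsZeroAtImInfty (f : ℍ → ℂ) := CuspFormClass.zero_at_infty f
    have hc0 : c = 0 := by
      rw [hfc] at hz
      have h1 : Filter.Tendsto (Function.const ℍ c) atImInfty (nhds 0) := hz
      have h2 : Filter.Tendsto (Function.const ℍ c) atImInfty (nhds c) := tendsto_const_nhds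
      exact tendsto_nhds_unique h2 h1
    ext z
    have := congrFun hfc z
    simpa [hc0] using this

theorem neg_one_mem_Gamma0_map (N : ℕ) :
    (-1 : GL (Fin 2) ℝ) ∈
      ((CongruenceSubgroup.Gamma0 N : Subgroup SL(2, ℤ)) : Subgroup (GL (Fin 2) ℝ)) := by
  refine ⟨-1, ?_, ?_⟩
  · simp [CongruenceSubgroup.Gamma0_mem]
  · ext i j
    simp [Matrix.SpecialLinearGroup.mapGL]

theorem cuspForm_eq_zero_of_odd (N : ℕ) [NeZero N] {k : ℤ} (hk : Odd k)
    (f : CuspForm (CongruenceSubgroup.Gamma0 N) k) : f = 0 := by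
  have h := ModularForm.eq_zero_of_neg_one_mem (neg_one_mem_Gamma0_map N) hk
    (CuspForm.toModularFormₗ f)
  exact CuspForm.toModularFormₗ_injective (by rw [h, map_zero])

theorem moduleFinite_heckeAlgebra_of_forall_eq_zero (N : ℕ) [NeZero N] (k : ℤ) (S : Set ℕ)
    (h : ∀ f : CuspForm (CongruenceSubgroup.Gamma0 N) k, f = 0) :
    Module.Finite ℤ (CuspForm.heckeAlgebra N k S) := by
  haveI : Subsingleton (CuspForm (CongruenceSubgroup.Gamma0 N) k) :=
    ⟨fun a b => by rw [h a, h b]⟩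
  haveI : Subsingleton (Module.End ℂ (CuspForm (CongruenceSubgroup.Gamma0 N) k)) :=
    ⟨fun a b => LinearMap.ext fun x => Subsingleton.elim _ _⟩
  haveI : Subsingleton (CuspForm.heckeAlgebra N k S) :=
    ⟨fun a b => Subtype.ext (Subsingleton.elim _ _)⟩
  infer_instance

end Fermat.Agent.S22
end MergeWrap_S22_Trivial

section MergeWrap_S22_Assembly -- from S22/Assembly.lean

set_option autoImplicit false
set_option linter.unusedSectionVars false

/-!
# Assembly: the Hecke algebra is a finite `ℤ`-module (weights `k = m + 2`)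
-/

namespace Fermat.Agent.S22

open UpperHalfPlane Polynomial Matrix.SpecialLinearGroup
open scoped ModularForm MatrixGroups Manifold

section

variable {N : ℕ} [NeZero N] {m : ℕ}

local notation "V" => CuspForm (CongruenceSubgroup.Gamma0 N) ((m : ℤ) + 2)

/-- The period lattice separates the points of `S_{m+2}(Γ₀(N))`. -/
theorem periodLattice_separates (f : V) (h : ∀ l ∈ periodLattice N m, l f = 0) : f = 0 := by
  have hpoly : ∀ γ : CongruenceSubgroup.Gamma0 N, periodPoly γ f = 0 := by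
    intro γ
    apply eq_zero_of_intFunctionals (natDegree_periodPoly γ f)
    intro φ hφ
    have := h _ (comp_periodPolyLin_mem_periodLattice (m := m) γ hφ)
    simpa using this
  refine separation N m f (eichler f) (mdiff_eichler f) (iterate_dH_eichler f)
    (isZeroAtImInfty_eichler f) ?_
  intro γ hγ
  have h0 : periodFun γ f = 0 := by
    funext τ
    have := periodFun_eq_eval ⟨γ, hγ⟩ f τ
    rw [hpoly ⟨γ, hγ⟩] at this
    simpa using this
  rw [periodFun, sub_eq_zero] at h0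
  exact h0

/-- Main assembly, parametrised by the two remaining inputs. -/
theorem moduleFinite_heckeAlgebra_of_inputs (S : Set ℕ)
    (hfg : (periodLattice N m).FG)
    (hU : ∀ {q : ℕ} (_ : q.Prime) (hqN : q ∣ N),
      ∀ l ∈ periodLattice N m, l ∘ₗ (CuspForm.heckeULin ((m : ℤ) + 2) hqN) ∈ periodLattice N m) :
    Module.Finite ℤ (CuspForm.heckeAlgebra N ((m : ℤ) + 2) S) := by
  refine moduleFinite_adjoin_of_dual_lattice (CuspForm.heckeGenerators N ((m : ℤ) + 2) S)
    (periodLattice N m) hfg periodLattice_separates ?_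
  rintro g (⟨ℓ, hℓ, hℓN, -, rfl⟩ | ⟨q, hqN, hq, -, rfl⟩) l hl
  · exact periodLattice_stable_T hℓ hℓN hl
  · exact hU hq hqN l hl

end

end Fermat.Agent.S22
end MergeWrap_S22_Assembly

section MergeWrap_S22_HeckeU -- from S22/HeckeU.lean

/-!
# S22: the period lattice is stable under `U_q`
-/

set_option autoImplicit false

namespace Fermat.Agent.S22

open UpperHalfPlane Polynomial Matrix.SpecialLinearGroup
open scoped ModularForm MatrixGroups Manifold

open P2MW.S_ModularForm_heckeT_slash_eq_self_of_mem_Gamma0.ModularForm.HeckeSlashInvariance in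
/-- Coset relation for `U_q` (from the Prelude), with the new element in `Γ₀(N)`. -/
theorem heckeU_coset {N : ℕ} {q : ℕ} [NeZero q] (hqN : q ∣ N) (γ : CongruenceSubgroup.Gamma0 N)
    (x : ZMod q) :
    ∃ (γ' : CongruenceSubgroup.Gamma0 N) (y : ZMod q),
      y = affinePerm (γ : SL(2, ℤ)) ((ZMod.intCast_zmod_eq_zero_iff_dvd _ _).mpr
        ((Int.natCast_dvd_natCast.mpr hqN).trans
          ((ZMod.intCast_zmod_eq_zero_iff_dvd _ _).mp
            (CongruenceSubgroup.Gamma0_mem.mp γ.2)))) x ∧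
      ModularForm.heckeMatrix q x.val * mapGL ℝ (γ : SL(2, ℤ)) =
        mapGL ℝ (γ' : SL(2, ℤ)) * ModularForm.heckeMatrix q y.val := by
  have hcN : (N : ℤ) ∣ (γ : SL(2, ℤ)) 1 0 :=
    (ZMod.intCast_zmod_eq_zero_iff_dvd _ _).mp (CongruenceSubgroup.Gamma0_mem.mp γ.2)
  have hc : (q : ℤ) ∣ (γ : SL(2, ℤ)) 1 0 := (Int.natCast_dvd_natCast.mpr hqN).trans hcN
  obtain ⟨g', hg', hmul⟩ := heckeMatrix_mul_of_dvd (γ : SL(2, ℤ)) hc x
  have hg'N : g' ∈ CongruenceSubgroup.Gamma0 N := by
    rw [CongruenceSubgroup.Gamma0_mem, hg']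
    push_cast
    rw [CongruenceSubgroup.Gamma0_mem.mp γ.2, mul_zero]
  exact ⟨⟨g', hg'N⟩, _, rfl, hmul⟩

section

variable {N : ℕ} [NeZero N] {m : ℕ}

local notation "V" => CuspForm (CongruenceSubgroup.Gamma0 N) ((m : ℤ) + 2)

/-- The Eichler integral of `U_q f`. -/
theorem eichler_heckeU {q : ℕ} (hq0 : q ≠ 0) (hqN : q ∣ N) (f : V) :
    eichler (CuspForm.heckeULin ((m : ℤ) + 2) hqN f) =
      ((q : ℂ) ^ (m + 1)) • ModularForm.heckeU (-(m : ℤ)) q (eichler f) := by
  apply eichler_eq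
  · exact (mdiff_heckeU (mdiff_eichler f) _ _).const_smul _
  · rw [iterate_dH_heckeU m hq0 (mdiff_eichler f), iterate_dH_eichler]
    rfl
  · exact (isZeroAtImInfty_heckeU (isZeroAtImInfty_eichler f) _ _).smul _

theorem eichler_slash_eq (γ : SL(2, ℤ)) (f : V) :
    eichler f ∣[-(m : ℤ)] (mapGL ℝ γ) = eichler f + periodFun γ f := by
  simp [periodFun]

theorem smul_slash_mapGL_S22 (k : ℤ) (c : ℂ) (F : ℍ → ℂ) (γ : SL(2, ℤ)) :
    (c • F) ∣[k] (mapGL ℝ γ) = c • (F ∣[k] (mapGL ℝ γ)) := by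
  have hσ (x : ℂ) : σ (mapGL ℝ γ : GL (Fin 2) ℝ) x = x := by
    simp [σ]
  simp only [ModularForm.smul_slash, hσ]

open P2MW.S_ModularForm_heckeT_slash_eq_self_of_mem_Gamma0.ModularForm.HeckeSlashInvariance in
/-- The period function of `U_q f` in terms of period functions of `f`. -/
theorem periodFun_heckeU {q : ℕ} [NeZero q] (hqN : q ∣ N) (γ : CongruenceSubgroup.Gamma0 N)
    (f : V) (γ' : ZMod q → CongruenceSubgroup.Gamma0 N) (π : Equiv.Perm (ZMod q))
    (h : ∀ x : ZMod q, ModularForm.heckeMatrix q x.val * mapGL ℝ (γ : SL(2, ℤ)) =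
      mapGL ℝ (γ' x : SL(2, ℤ)) * ModularForm.heckeMatrix q (π x).val) :
    periodFun (γ : SL(2, ℤ)) (CuspForm.heckeULin ((m : ℤ) + 2) hqN f) =
      ((q : ℂ) ^ (m + 1)) • ∑ x : ZMod q,
        (periodFun (γ' x : SL(2, ℤ)) f) ∣[-(m : ℤ)] ModularForm.heckeMatrix q (π x).val := by
  have hq0 : q ≠ 0 := NeZero.ne q
  rw [periodFun, eichler_heckeU hq0 hqN f, smul_slash_mapGL_S22, ← smul_sub]
  congr 1
  rw [heckeU_eq_sum_zmod, SlashAction.sum_slash]
  have h1 : ∀ x : ZMod q,
      (eichler f ∣[-(m : ℤ)] ModularForm.heckeMatrix q x.val) ∣[-(m : ℤ)]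
          (mapGL ℝ (γ : SL(2, ℤ))) =
        eichler f ∣[-(m : ℤ)] ModularForm.heckeMatrix q (π x).val +
          (periodFun (γ' x : SL(2, ℤ)) f) ∣[-(m : ℤ)] ModularForm.heckeMatrix q (π x).val := by
    intro x
    rw [← SlashAction.slash_mul, h x, SlashAction.slash_mul, eichler_slash_eq,
      SlashAction.add_slash]
  rw [Finset.sum_congr rfl fun x _ => h1 x, Finset.sum_add_distrib]
  have h2 : ∑ x : ZMod q, eichler f ∣[-(m : ℤ)] ModularForm.heckeMatrix q (π x).val =
      ∑ x : ZMod q, eichler f ∣[-(m : ℤ)] ModularForm.heckeMatrix q x.val :=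
    Equiv.sum_comp π (fun x => eichler f ∣[-(m : ℤ)] ModularForm.heckeMatrix q x.val)
  rw [h2]
  abel

/-- Slash by a Hecke matrix on polynomial functions. -/
theorem slash_heckeMatrix_poly {q : ℕ} (hq0 : q ≠ 0) (j : ℕ) {F : ℍ → ℂ} {p : ℂ[X]}
    (hp : p.natDegree ≤ m) (hF : ∀ τ : ℍ, F τ = p.eval (τ : ℂ)) (τ : ℍ) :
    ((q : ℂ) ^ (m + 1)) * (F ∣[-(m : ℤ)] ModularForm.heckeMatrix q j) τ =
      (polyAct m 1 (j : ℤ) 0 (q : ℤ) p).eval (τ : ℂ) := by
  have hdet : (ModularForm.heckeMatrix q j).val.det = (q : ℝ) := val_det_heckeMatrix hq0 j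
  have hpos : 0 < (ModularForm.heckeMatrix q j).val.det := by
    rw [hdet]; exact_mod_cast Nat.pos_of_ne_zero hq0
  have hval := ModularForm.val_heckeMatrix hq0 j
  have e00 : (ModularForm.heckeMatrix q j) 0 0 = ((1 : ℤ) : ℝ) := by
    show (ModularForm.heckeMatrix q j : Matrix (Fin 2) (Fin 2) ℝ) 0 0 = _
    rw [hval]; simp
  have e01 : (ModularForm.heckeMatrix q j) 0 1 = (((j : ℤ)) : ℝ) := by
    show (ModularForm.heckeMatrix q j : Matrix (Fin 2) (Fin 2) ℝ) 0 1 = _
    rw [hval]; simp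
  have e10 : (ModularForm.heckeMatrix q j) 1 0 = ((0 : ℤ) : ℝ) := by
    show (ModularForm.heckeMatrix q j : Matrix (Fin 2) (Fin 2) ℝ) 1 0 = _
    rw [hval]; simp
  have e11 : (ModularForm.heckeMatrix q j) 1 1 = (((q : ℤ)) : ℝ) := by
    show (ModularForm.heckeMatrix q j : Matrix (Fin 2) (Fin 2) ℝ) 1 1 = _
    rw [hval]; simp
  rw [slash_poly m hpos 1 (j : ℤ) 0 (q : ℤ) e00 e01 e10 e11 hp hF τ, hdet]
  have hq' : (q : ℂ) ≠ 0 := by exact_mod_cast hq0
  rw [← mul_assoc]
  have : (q : ℂ) ^ (m + 1) * (((q : ℝ) : ℂ)⁻¹) ^ (m + 1) = 1 := by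
    rw [← mul_pow]
    have : (q : ℂ) * ((q : ℝ) : ℂ)⁻¹ = 1 := by
      push_cast
      exact mul_inv_cancel₀ hq'
    rw [this, one_pow]
  rw [this, one_mul]

/-- The relation between period polynomials needed for stability under `U_q`. -/
theorem periodPolyLin_comp_heckeU {q : ℕ} [NeZero q] (hqN : q ∣ N)
    (γ : CongruenceSubgroup.Gamma0 N)
    (γ' : ZMod q → CongruenceSubgroup.Gamma0 N) (π : Equiv.Perm (ZMod q))
    (h : ∀ x : ZMod q, ModularForm.heckeMatrix q x.val * mapGL ℝ (γ : SL(2, ℤ)) =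
      mapGL ℝ (γ' x : SL(2, ℤ)) * ModularForm.heckeMatrix q (π x).val) :
    periodPolyLin (m := m) γ ∘ₗ CuspForm.heckeULin ((m : ℤ) + 2) hqN =
      ∑ x ∈ (Finset.univ : Finset (ZMod q)),
        polyAct m 1 (((π x).val : ℕ) : ℤ) 0 (q : ℤ) ∘ₗ periodPolyLin (m := m) (γ' x) := by
  have hq0 : q ≠ 0 := NeZero.ne q
  ext1 f
  rw [LinearMap.comp_apply, periodPolyLin_apply, LinearMap.sum_apply]
  apply periodPoly_eq
  intro τ
  rw [periodFun_heckeU hqN γ f γ' π h, Pi.smul_apply, Finset.sum_apply, smul_eq_mul,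
    Finset.mul_sum, eval_finsetSum]
  refine Finset.sum_congr rfl fun x _ => ?_
  rw [LinearMap.comp_apply, periodPolyLin_apply]
  exact slash_heckeMatrix_poly hq0 (π x).val (natDegree_periodPoly (γ' x) f)
    (periodFun_eq_eval (γ' x) f) τ

open P2MW.S_ModularForm_heckeT_slash_eq_self_of_mem_Gamma0.ModularForm.HeckeSlashInvariance in
/-- **Stability of the period lattice under `U_q`.** -/
theorem periodLattice_stable_U {N : ℕ} [NeZero N] {m : ℕ} {q : ℕ} (hq : q.Prime) (hqN : q ∣ N)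
    {l : CuspForm (CongruenceSubgroup.Gamma0 N) ((m : ℤ) + 2) →ₗ[ℂ] ℂ}
    (hl : l ∈ periodLattice N m) :
    l ∘ₗ (CuspForm.heckeULin ((m : ℤ) + 2) hqN) ∈ periodLattice N m := by
  have : NeZero q := ⟨hq.ne_zero⟩
  refine periodLattice_stable_of_relation (CuspForm.heckeULin ((m : ℤ) + 2) hqN) ?_ hl
  intro γ
  have hc0 : (((γ : SL(2, ℤ)) 1 0 : ℤ) : ZMod q) = 0 :=
    (ZMod.intCast_zmod_eq_zero_iff_dvd _ _).mpr
      ((Int.natCast_dvd_natCast.mpr hqN).trans
        ((ZMod.intCast_zmod_eq_zero_iff_dvd _ _).mp (CongruenceSubgroup.Gamma0_mem.mp γ.2)))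
  have hex : ∀ x : ZMod q, ∃ γ' : CongruenceSubgroup.Gamma0 N,
      ModularForm.heckeMatrix q x.val * mapGL ℝ (γ : SL(2, ℤ)) =
        mapGL ℝ (γ' : SL(2, ℤ)) *
          ModularForm.heckeMatrix q (affinePerm (γ : SL(2, ℤ)) hc0 x).val := by
    intro x
    obtain ⟨γ', y, hy, hmul⟩ := heckeU_coset hqN γ x
    exact ⟨γ', hy ▸ hmul⟩
  choose γ' hγ' using hex
  exact ⟨ZMod q, Finset.univ, γ', fun _ => 1,
    fun x => (((affinePerm (γ : SL(2, ℤ)) hc0 x).val : ℕ) : ℤ), fun _ => 0, fun _ => (q : ℤ),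
    periodPolyLin_comp_heckeU hqN γ γ' (affinePerm (γ : SL(2, ℤ)) hc0) hγ'⟩

end

end Fermat.Agent.S22
end MergeWrap_S22_HeckeU

section MergeWrap_S22_LatticeFG -- from S22/LatticeFG.lean

set_option autoImplicit false

namespace Fermat.Agent.S22

open Polynomial

/-- Abstract finite generation of the lattice of "integral coefficient functionals" of a cocycle
on a finitely generated group. -/
theorem cocycle_lattice_fg {Γ : Type*} [Group Γ] [Group.FG Γ] {V : Type*} [AddCommGroup V]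
    [Module ℂ V] (m : ℕ)
    (ρ : Γ → (V →ₗ[ℂ] ℂ[X])) (act : Γ → (ℂ[X] →ₗ[ℂ] ℂ[X]))
    (hact : ∀ γ, ∀ φ ∈ intFunctionals m, φ ∘ₗ act γ ∈ intFunctionals m)
    (hone : ρ 1 = 0)
    (hmul : ∀ γ δ, ρ (γ * δ) = act δ ∘ₗ ρ γ + ρ δ) :
    (Submodule.span ℤ {l : V →ₗ[ℂ] ℂ | ∃ γ : Γ, ∃ φ ∈ intFunctionals m, l = φ ∘ₗ ρ γ}).FG := by
  classical
  obtain ⟨S, hS⟩ := (Group.fg_def (G := Γ)).mp inferInstance
  -- the finitely generated candidate lattice
  let gen : Set (V →ₗ[ℂ] ℂ) :=
    (fun x : Γ × Fin (m + 1) => lcoeff ℂ (x.2 : ℕ) ∘ₗ ρ x.1) '' ((S : Set Γ) ×ˢ Set.univ)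
  have hgenfin : gen.Finite := (S.finite_toSet.prod Set.finite_univ).image _
  let Λ₀ : Submodule ℤ (V →ₗ[ℂ] ℂ) := Submodule.span ℤ gen
  have hΛ₀fg : Λ₀.FG := Submodule.fg_span hgenfin
  -- generators
  have hS_mem : ∀ s ∈ S, ∀ φ ∈ intFunctionals m, φ ∘ₗ ρ s ∈ Λ₀ := by
    intro s hs φ hφ
    induction hφ using Submodule.span_induction with
    | mem x hx =>
      obtain ⟨j, rfl⟩ := hx
      exact Submodule.subset_span ⟨(s, j), ⟨hs, Set.mem_univ _⟩, rfl⟩
    | zero => simp
    | add x y _ _ hx hy =>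
      rw [LinearMap.add_comp]
      exact Λ₀.add_mem hx hy
    | smul n x _ hx =>
      rw [LinearMap.smul_comp]
      exact Λ₀.smul_mem n hx
  -- the subgroup of good elements
  have hinv_formula : ∀ γ : Γ, ρ γ⁻¹ = -(act γ⁻¹ ∘ₗ ρ γ) := by
    intro γ
    have h := hmul γ γ⁻¹
    rw [mul_inv_cancel, hone] at h
    exact eq_neg_of_add_eq_zero_right h.symm
  let H : Subgroup Γ :=
    { carrier := {γ | ∀ φ ∈ intFunctionals m, φ ∘ₗ ρ γ ∈ Λ₀}
      one_mem' := by
        intro φ _
        rw [hone]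
        simp
      mul_mem' := by
        intro γ δ hγ hδ φ hφ
        rw [hmul, LinearMap.comp_add, ← LinearMap.comp_assoc]
        exact Λ₀.add_mem (hγ _ (hact δ φ hφ)) (hδ φ hφ)
      inv_mem' := by
        intro γ hγ φ hφ
        rw [hinv_formula, LinearMap.comp_neg, ← LinearMap.comp_assoc]
        exact Λ₀.neg_mem (hγ _ (hact γ⁻¹ φ hφ)) }
  have hH : H = ⊤ := by
    rw [eq_top_iff, ← hS, Subgroup.closure_le]
    intro s hs
    exact hS_mem s (Finset.mem_coe.mp hs)
  have hall : ∀ γ : Γ, ∀ φ ∈ intFunctionals m, φ ∘ₗ ρ γ ∈ Λ₀ := by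
    intro γ
    have : γ ∈ H := by rw [hH]; exact Subgroup.mem_top γ
    exact this
  have heq : Submodule.span ℤ {l : V →ₗ[ℂ] ℂ | ∃ γ : Γ, ∃ φ ∈ intFunctionals m, l = φ ∘ₗ ρ γ}
      = Λ₀ := by
    apply le_antisymm
    · rw [Submodule.span_le]
      rintro l ⟨γ, φ, hφ, rfl⟩
      exact hall γ φ hφ
    · rw [Submodule.span_le]
      rintro l ⟨⟨s, j⟩, _, rfl⟩
      exact Submodule.subset_span ⟨s, lcoeff ℂ (j : ℕ),
        lcoeff_mem_intFunctionals (Nat.lt_succ_iff.mp j.2), rfl⟩
  rw [heq]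
  exact hΛ₀fg

end Fermat.Agent.S22
end MergeWrap_S22_LatticeFG

section MergeWrap_S22 -- from S22.lean

set_option autoImplicit false
open CuspForm

namespace Fermat.Agent.S22

open Polynomial

/-- The period lattice is finitely generated. -/
theorem periodLattice_fg (N : ℕ) [NeZero N] (m : ℕ) : (periodLattice N m).FG := by
  haveI : Group.FG (CongruenceSubgroup.Gamma0 N) := fg_Gamma0 N
  exact cocycle_lattice_fg m (fun γ : CongruenceSubgroup.Gamma0 N => periodPolyLin (m := m) γ)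
    (fun γ => actSL m (γ : Matrix.SpecialLinearGroup (Fin 2) ℤ))
    (fun γ φ hφ => comp_polyAct_mem_intFunctionals m _ _ _ _ hφ)
    periodPolyLin_one periodPolyLin_mul

theorem moduleFinite_heckeAlgebra_add_two (N : ℕ) [NeZero N] (m : ℕ) (S : Set ℕ) :
    Module.Finite ℤ (CuspForm.heckeAlgebra N ((m : ℤ) + 2) S) :=
  moduleFinite_heckeAlgebra_of_inputs S (periodLattice_fg N m)
    (fun hq hqN _ hl => periodLattice_stable_U hq hqN hl)

theorem result (N : ℕ) [NeZero N] (k : ℤ) (S : Set ℕ) :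
    Module.Finite ℤ (CuspForm.heckeAlgebra N k S) := by
  rcases le_or_gt k 0 with hk | hk
  · exact moduleFinite_heckeAlgebra_of_forall_eq_zero N k S
      (fun f => cuspForm_eq_zero_of_nonpos N hk f)
  · rcases eq_or_lt_of_le (show (1 : ℤ) ≤ k by omega) with h1 | h2
    · subst h1
      exact moduleFinite_heckeAlgebra_of_forall_eq_zero N 1 S
        (fun f => cuspForm_eq_zero_of_odd N odd_one f)
    · obtain ⟨m, rfl⟩ : ∃ m : ℕ, k = (m : ℤ) + 2 := ⟨(k - 2).toNat, by omega⟩
      exact moduleFinite_heckeAlgebra_add_two N m S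

end Fermat.Agent.S22
end MergeWrap_S22
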